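import Mathlib.Algebra.Polynomial.Taylor
import Mathlib.RingTheory.Algebraic.Basic
import Mathlib.RingTheory.PowerSeries.Exp
import Mathlib.RingTheory.PowerSeries.Order
import Mathlib.RingTheory.PowerSeries.Trunc
import Mathlib.Tactic

/-!
# Eisenstein's theorem on algebraic power series

A power series with rational coefficients which is algebraic over the rational functions has
coefficients whose denominators divide the powers of one integer.
-/

set_option autoImplicit false

noncomputable section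

open Polynomial Finset

namespace FA.EisensteinTheorem

/-- The integers among the rationals. -/
abbrev intRange : Subring ℚ := (Int.castRingHom ℚ).range

theorem cast_mem (D : ℕ) : (D : ℚ) ∈ intRange := _root_.natCast_mem _ D

/-- Bounded denominators. -/
def Bounded (p : PowerSeries ℚ) : Prop :=
  ∃ D : ℕ, 0 < D ∧ ∀ i, PowerSeries.coeff i p * D ∈ intRange

theorem exists_common_den (s : Finset ℚ) : ∃ D : ℕ, 0 < D ∧ ∀ q ∈ s, q * D ∈ intRange := by
  refine ⟨∏ q ∈ s, q.den, Finset.prod_pos fun q _ => q.den_pos, fun q hq => ?_⟩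
  rw [← mul_prod_erase s _ hq, Nat.cast_mul, ← mul_assoc, Rat.mul_den_eq_num]
  exact mul_mem ⟨q.num, rfl⟩ (cast_mem _)

theorem bounded_coe (p : ℚ[X]) : Bounded (p : PowerSeries ℚ) := by
  obtain ⟨D, hD, h⟩ := exists_common_den ((range (p.natDegree + 1)).image p.coeff)
  refine ⟨D, hD, fun i => ?_⟩
  rw [Polynomial.coeff_coe]
  rcases le_or_gt i p.natDegree with hi | hi
  · exact h _ (mem_image_of_mem _ (mem_range.2 (Nat.lt_succ_of_le hi)))
  · rw [Polynomial.coeff_eq_zero_of_natDegree_lt hi, zero_mul]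
    exact zero_mem _

theorem Bounded.of_X_pow_mul {p : PowerSeries ℚ} {k : ℕ} (h : Bounded (PowerSeries.X ^ k * p)) :
    Bounded p := by
  obtain ⟨D, hD, h⟩ := h
  exact ⟨D, hD, fun i => by simpa [PowerSeries.coeff_X_pow_mul] using h (i + k)⟩

theorem Bounded.X_pow_mul {p : PowerSeries ℚ} (k : ℕ) (h : Bounded p) :
    Bounded (PowerSeries.X ^ k * p) := by
  obtain ⟨D, hD, h⟩ := h
  refine ⟨D, hD, fun i => ?_⟩
  rw [PowerSeries.coeff_X_pow_mul']
  split_ifs
  · exact h _
  · rw [zero_mul]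
    exact zero_mem _

theorem Bounded.add {p q : PowerSeries ℚ} (hp : Bounded p) (hq : Bounded q) :
    Bounded (p + q) := by
  obtain ⟨D, hD, hp⟩ := hp
  obtain ⟨E, hE, hq⟩ := hq
  refine ⟨D * E, Nat.mul_pos hD hE, fun i => ?_⟩
  rw [map_add, Nat.cast_mul, show ∀ x y d e : ℚ, (x + y) * (d * e) = x * d * e + y * e * d from
    fun x y d e => by ring]
  exact add_mem (mul_mem (hp i) (cast_mem E)) (mul_mem (hq i) (cast_mem D))

theorem Bounded.C_mul {p : PowerSeries ℚ} (c : ℚ) (h : Bounded p) :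
    Bounded (PowerSeries.C c * p) := by
  obtain ⟨D, hD, h⟩ := h
  refine ⟨c.den * D, Nat.mul_pos c.den_pos hD, fun i => ?_⟩
  rw [PowerSeries.coeff_C_mul, Nat.cast_mul,
    show ∀ x d e : ℚ, c * x * (d * e) = c * d * (x * e) from fun x d e => by ring,
    Rat.mul_den_eq_num]
  exact mul_mem ⟨c.num, rfl⟩ (h i)

theorem mem_of_le {q : ℚ} {D a b : ℕ} (h : q * (D : ℚ) ^ a ∈ intRange) (hab : a ≤ b) :
    q * (D : ℚ) ^ b ∈ intRange := by
  rw [← Nat.add_sub_cancel' hab, pow_add, ← mul_assoc]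
  exact mul_mem h (pow_mem (cast_mem D) _)

/-- The recursion: `g = a + X * ∑ Cⱼ gʲ` with bounded denominators on the right. -/
theorem denominators_of_recursion {K : ℕ} {g a : PowerSeries ℚ} {C : ℕ → PowerSeries ℚ}
    (ha : Bounded a) (hC : ∀ j ∈ range (K + 1), Bounded (C j))
    (hg : g = a + PowerSeries.X * ∑ j ∈ range (K + 1), C j * g ^ j) :
    ∃ D : ℕ, 0 < D ∧ ∀ n, PowerSeries.coeff n g * (D : ℚ) ^ (K * n + 1) ∈ intRange := by
  obtain ⟨Da, hDa, hDa'⟩ := ha
  choose! DC hDC hDC' using hC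
  set D := Da * ∏ j ∈ range (K + 1), DC j with hD
  have hD1 : ∀ i, PowerSeries.coeff i a * (D : ℚ) ∈ intRange := fun i => by
    rw [hD, Nat.cast_mul, ← mul_assoc]
    exact mul_mem (hDa' i) (cast_mem _)
  have hD2 : ∀ j ∈ range (K + 1), ∀ i, PowerSeries.coeff i (C j) * (D : ℚ) ∈ intRange := by
    intro j hj i
    rw [hD, ← mul_prod_erase _ _ hj, ← mul_assoc, mul_comm Da, mul_assoc, Nat.cast_mul,
      ← mul_assoc]
    exact mul_mem (hDC' j hj i) (cast_mem _)
  refine ⟨D, Nat.mul_pos hDa (Finset.prod_pos hDC), ?_⟩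
  suffices h : ∀ n, ∀ k ≤ n, PowerSeries.coeff k g * (D : ℚ) ^ (K * k + 1) ∈ intRange from
    fun n => h n n le_rfl
  intro n
  induction n with
  | zero =>
    intro k hk
    obtain rfl : k = 0 := by omega
    rw [hg, map_add, PowerSeries.coeff_zero_X_mul, add_zero, Nat.mul_zero, pow_one]
    exact hD1 0
  | succ n ih =>
    intro k hk
    rcases Nat.lt_or_ge k (n + 1) with h | h
    · exact ih k (by omega)
    obtain rfl : k = n + 1 := by omega
    -- the powers of `g` up to the coefficient `n`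
    have hpow : ∀ j k, k ≤ n →
        PowerSeries.coeff k (g ^ j) * (D : ℚ) ^ (K * k + j) ∈ intRange := by
      intro j
      induction j with
      | zero =>
        intro k _
        rw [pow_zero, PowerSeries.coeff_one, ite_mul, one_mul, zero_mul]
        split_ifs
        exacts [pow_mem (cast_mem D) _, zero_mem _]
      | succ j hj =>
        intro k hk
        rw [pow_succ, PowerSeries.coeff_mul, sum_mul]
        refine sum_mem fun p hp => ?_
        rw [HasAntidiagonal.mem_antidiagonal] at hp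
        rw [show K * k + (j + 1) = (K * p.1 + j) + (K * p.2 + 1) by rw [← hp]; ring, pow_add,
          show ∀ x y u v : ℚ, x * y * (u * v) = (x * u) * (y * v) from fun x y u v => by ring]
        exact mul_mem (hj _ (by omega)) (ih _ (by omega))
    rw [hg, map_add, PowerSeries.coeff_succ_X_mul, map_sum, add_mul, sum_mul]
    refine add_mem (mem_of_le (by simpa using hD1 (n + 1)) (a := 1) (by omega))
      (sum_mem fun j hj => ?_)
    rw [PowerSeries.coeff_mul, sum_mul]
    refine sum_mem fun p hp => mem_of_le (a := (K * p.2 + j) + 1) ?_ ?_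
    · rw [pow_succ, show ∀ x y u v : ℚ, x * y * (u * v) = (x * v) * (y * u) from
        fun x y u v => by ring]
      exact mul_mem (hD2 j hj _) (hpow j _ (by rw [HasAntidiagonal.mem_antidiagonal] at hp; omega))
    · rw [HasAntidiagonal.mem_antidiagonal] at hp
      rw [mem_range] at hj
      have : K * p.2 ≤ K * n := Nat.mul_le_mul_left K (by omega)
      rw [Nat.mul_succ]
      omega

theorem algebraMap_eq (p : ℚ[X]) : algebraMap ℚ[X] (PowerSeries ℚ) p = (p : PowerSeries ℚ) := by
  rw [PowerSeries.algebraMap_apply', Algebra.algebraMap_self, PowerSeries.map_id, id_eq]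

/-- **Eisenstein's theorem.** -/
theorem exists_denominator (f : PowerSeries ℚ) (hf : IsAlgebraic ℚ[X] f) :
    ∃ N : ℕ, 0 < N ∧ ∀ n, PowerSeries.coeff n f * (N : ℚ) ^ (n + 1) ∈ intRange := by
  classical
  -- a separable equation
  have hinj : Function.Injective (algebraMap ℚ[X] (PowerSeries ℚ)) := fun p q h =>
    Polynomial.coe_injective ℚ (by simpa only [algebraMap_eq] using h)
  have hex : ∃ d, ∃ P : ℚ[X][X], P ≠ 0 ∧ aeval f P = 0 ∧ P.natDegree = d := by
    obtain ⟨P, hP, hPf⟩ := hf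
    exact ⟨_, P, hP, hPf, rfl⟩
  obtain ⟨P, hP, hPf, hPd⟩ := Nat.find_spec hex
  have hder : aeval f (derivative P) ≠ 0 := by
    intro h
    have hd0 : P.natDegree ≠ 0 := fun h0 => by
      rw [Polynomial.eq_C_of_natDegree_eq_zero h0, aeval_C, map_eq_zero_iff _ hinj] at hPf
      exact hP (by rw [Polynomial.eq_C_of_natDegree_eq_zero h0, hPf, map_zero])
    refine Nat.find_min hex (m := (derivative P).natDegree) ?_
      ⟨_, fun h0 => hd0 (Polynomial.derivative_eq_zero.1 h0), h, rfl⟩
    rw [← hPd]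
    exact natDegree_derivative_lt hd0
  set u := aeval f (derivative P) with hu
  set e := u.order.toNat
  have hu' : PowerSeries.X ^ e * u.divXPowOrder = u := PowerSeries.X_pow_order_mul_divXPowOrder
  -- split off the first `e + 1` terms
  set T := PowerSeries.trunc (e + 1) f
  obtain ⟨g, hgT⟩ : PowerSeries.X ^ (e + 1) ∣ f - (T : PowerSeries ℚ) := by
    rw [PowerSeries.X_pow_dvd_iff]
    intro m hm
    rw [map_sub, Polynomial.coeff_coe, PowerSeries.coeff_trunc, if_pos hm, sub_self]
  set s := PowerSeries.X ^ (e + 1) * g with hs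
  have hfs : f = (T : PowerSeries ℚ) + s := by rw [← hgT]; ring
  set Q := taylor T P
  have hQs : aeval s Q = 0 := by
    simp only [Q]
    rw [taylor_apply, aeval_comp, map_add, aeval_X, aeval_C, algebraMap_eq, add_comm, ← hfs, hPf]
  set J := Q.natDegree
  rw [aeval_eq_sum_range' (n := J + 2) (by omega), sum_range_succ', sum_range_succ'] at hQs
  simp only [Algebra.smul_def, algebraMap_eq, zero_add, pow_zero, mul_one, pow_one] at hQs
  -- the coefficient of the linear term
  obtain ⟨w, hw⟩ : ∃ w, ((Q.coeff 1 : ℚ[X]) : PowerSeries ℚ) = u + PowerSeries.X ^ (e + 1) * w := by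
    have h := sub_dvd_eval_sub f (T : PowerSeries ℚ)
      ((derivative P).map (algebraMap ℚ[X] (PowerSeries ℚ)))
    rw [eval_map_algebraMap, eval_map_algebraMap, ← hu] at h
    obtain ⟨w, hw⟩ := (show PowerSeries.X ^ (e + 1) ∣ f - (T : PowerSeries ℚ) from
      ⟨g, hgT⟩).trans h
    refine ⟨-w, ?_⟩
    have e1 : ((Q.coeff 1 : ℚ[X]) : PowerSeries ℚ) =
        aeval ((T : ℚ[X]) : PowerSeries ℚ) (derivative P) := by
      rw [taylor_coeff_one, ← algebraMap_eq, ← algebraMap_eq T,
        aeval_algebraMap_apply_eq_algebraMap_eval]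
    rw [e1]
    linear_combination -hw
  set v := u.divXPowOrder + PowerSeries.X * w with hv
  have hQ1 : ((Q.coeff 1 : ℚ[X]) : PowerSeries ℚ) = PowerSeries.X ^ e * v := by
    rw [hw, hv]
    linear_combination -hu'
  set c := PowerSeries.constantCoeff v with hc
  have hc0 : c ≠ 0 := by
    rw [hc, hv, map_add, map_mul, PowerSeries.constantCoeff_X, zero_mul, add_zero]
    intro h
    exact hder (PowerSeries.constantCoeff_divXPowOrder_eq_zero_iff.1 h)
  obtain ⟨v1, hv1⟩ : ∃ v1, v = PowerSeries.X * v1 + PowerSeries.C c :=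
    ⟨_, PowerSeries.eq_X_mul_shift_add_const v⟩
  -- divide by `X ^ (2 e + 1)`
  set S := ∑ j ∈ range J, ((Q.coeff (j + 2) : ℚ[X]) : PowerSeries ℚ) *
    PowerSeries.X ^ ((e + 1) * j) * g ^ (j + 2) with hS
  set A := -(v * g + PowerSeries.X * S) with hA
  have hQ0 : ((Q.coeff 0 : ℚ[X]) : PowerSeries ℚ) = PowerSeries.X ^ (2 * e + 1) * A := by
    have e2 : ∀ j : ℕ, ((Q.coeff (j + 1 + 1) : ℚ[X]) : PowerSeries ℚ) * s ^ (j + 1 + 1) =
        PowerSeries.X ^ (2 * e + 2) * (((Q.coeff (j + 2) : ℚ[X]) : PowerSeries ℚ) *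
          PowerSeries.X ^ ((e + 1) * j) * g ^ (j + 2)) := fun j => by
      rw [hs, mul_pow, ← pow_mul, show (e + 1) * (j + 1 + 1) = 2 * e + 2 + (e + 1) * j by ring,
        pow_add]
      ring
    rw [sum_congr rfl fun j _ => e2 j, ← mul_sum, ← hS, hQ1, hs] at hQs
    rw [hA]
    linear_combination hQs
  have hAb : Bounded A := Bounded.of_X_pow_mul (hQ0 ▸ bounded_coe (Q.coeff 0))
  have hv1b : Bounded v1 := by
    refine Bounded.of_X_pow_mul (k := e + 1) ?_
    have h : PowerSeries.X ^ (e + 1) * v1 = ((Q.coeff 1 : ℚ[X]) : PowerSeries ℚ) +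
        PowerSeries.X ^ e * ((Polynomial.C (-c) : ℚ[X]) : PowerSeries ℚ) := by
      rw [hQ1, hv1, Polynomial.coe_C, map_neg, pow_succ]
      ring
    rw [h]
    exact (bounded_coe _).add ((bounded_coe _).X_pow_mul e)
  -- the recursion
  let C' : ℕ → PowerSeries ℚ := fun j => match j with
    | 0 => 0
    | 1 => PowerSeries.C (-c⁻¹) * v1
    | j + 2 => PowerSeries.C (-c⁻¹) *
        (PowerSeries.X ^ ((e + 1) * j) * ((Q.coeff (j + 2) : ℚ[X]) : PowerSeries ℚ))
  have hgrec : g = PowerSeries.C (-c⁻¹) * A +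
      PowerSeries.X * ∑ j ∈ range (J + 1 + 1), C' j * g ^ j := by
    rw [sum_range_succ', sum_range_succ']
    have e3 : ∑ k ∈ range J, C' (k + 1 + 1) * g ^ (k + 1 + 1) = PowerSeries.C (-c⁻¹) * S := by
      rw [hS, mul_sum]
      exact sum_congr rfl fun j _ => by simp only [C']; ring
    rw [e3]
    simp only [C', zero_mul, add_zero, zero_add, pow_one]
    have hcc : PowerSeries.C (-c⁻¹) * PowerSeries.C c = -1 := by
      rw [← map_mul, neg_mul, inv_mul_cancel₀ hc0, map_neg, map_one]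
    rw [hA, hv1]
    linear_combination g * hcc
  obtain ⟨D, hD, hDg⟩ := denominators_of_recursion (hAb.C_mul _) (fun j _ => by
    match j with
    | 0 => exact ⟨1, one_pos, fun i => by simp [C', zero_mem]⟩
    | 1 => exact hv1b.C_mul _
    | j + 2 => exact ((bounded_coe _).X_pow_mul _).C_mul _) hgrec
  obtain ⟨E, hE, hEf⟩ := exists_common_den ((range (e + 1)).image fun n => PowerSeries.coeff n f)
  refine ⟨E * D ^ (J + 1 + 1), Nat.mul_pos hE (pow_pos hD _), fun n => ?_⟩
  rw [Nat.cast_mul, Nat.cast_pow, mul_pow, ← pow_mul]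
  rcases Nat.lt_or_ge n (e + 1) with hn | hn
  · rw [pow_succ', ← mul_assoc, ← mul_assoc]
    exact mul_mem (mul_mem (hEf _ (mem_image_of_mem _ (mem_range.2 hn)))
      (pow_mem (cast_mem E) _)) (pow_mem (cast_mem D) _)
  · obtain ⟨k, rfl⟩ := Nat.exists_eq_add_of_le hn
    have hk : PowerSeries.coeff (e + 1 + k) f = PowerSeries.coeff k g := by
      rw [hfs, map_add, Polynomial.coeff_coe, PowerSeries.coeff_trunc, if_neg (by omega), zero_add,
        hs, add_comm (e + 1) k, PowerSeries.coeff_X_pow_mul]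
    rw [hk, mul_comm ((E : ℚ) ^ _), ← mul_assoc]
    refine mul_mem (mem_of_le (hDg k) ?_) (pow_mem (cast_mem E) _)
    nlinarith

/-- The exponential series is not algebraic. -/
theorem exp_not_algebraic : ¬IsAlgebraic ℚ[X] (PowerSeries.exp ℚ) := by
  intro h
  obtain ⟨N, hN, hN'⟩ := exists_denominator _ h
  obtain ⟨p, hpN, hp⟩ := Nat.exists_infinite_primes (N + 1)
  obtain ⟨z, hz⟩ := hN' p
  rw [PowerSeries.coeff_exp, eq_intCast, Algebra.algebraMap_self, RingHom.id_apply,
    div_mul_eq_mul_div, one_mul, eq_div_iff (by positivity)] at hz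
  have hz' : z * (p.factorial : ℤ) = (N : ℤ) ^ (p + 1) := by exact_mod_cast hz
  have : p ∣ N ^ (p + 1) := (Nat.dvd_factorial hp.pos le_rfl).trans
    (Int.natCast_dvd_natCast.1 ⟨z, by push_cast; linear_combination -hz'⟩)
  exact absurd (Nat.le_of_dvd hN (hp.dvd_of_dvd_pow this)) (by omega)

/-- The logarithmic series is not algebraic. -/
theorem log_not_algebraic :
    ¬IsAlgebraic ℚ[X] (PowerSeries.mk fun n : ℕ => (-1 : ℚ) ^ (n + 1) / n) := by
  intro h
  obtain ⟨N, hN, hN'⟩ := exists_denominator _ h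
  obtain ⟨p, hpN, hp⟩ := Nat.exists_infinite_primes (N + 1)
  obtain ⟨z, hz⟩ := hN' p
  rw [PowerSeries.coeff_mk, eq_intCast, div_mul_eq_mul_div,
    eq_div_iff (by exact_mod_cast hp.ne_zero)] at hz
  have hz' : z * (p : ℤ) = (-1) ^ (p + 1) * (N : ℤ) ^ (p + 1) := by exact_mod_cast hz
  have : p ∣ N ^ (p + 1) := Int.natCast_dvd_natCast.1 <| by
    push_cast
    exact ((isUnit_one.neg.pow (p + 1)).dvd_mul_left).1 ⟨z, by linear_combination -hz'⟩
  exact absurd (Nat.le_of_dvd hN (hp.dvd_of_dvd_pow this)) (by omega)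

/-- Only finitely many primes divide the denominators. -/
theorem finite_primes (f : PowerSeries ℚ) (hf : IsAlgebraic ℚ[X] f) :
    {p : ℕ | p.Prime ∧ ∃ n, p ∣ (PowerSeries.coeff n f).den}.Finite := by
  obtain ⟨N, hN, hN'⟩ := exists_denominator f hf
  refine (Set.finite_Iic N).subset fun p ⟨hp, n, hn⟩ => Nat.le_of_dvd hN ?_
  obtain ⟨z, hz⟩ := hN' n
  set q := PowerSeries.coeff n f
  rw [eq_intCast] at hz
  have h1 : (q.num : ℚ) * (N : ℚ) ^ (n + 1) = z * q.den := by
    rw [← Rat.mul_den_eq_num q, hz]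
    ring
  have h2 : q.num * (N : ℤ) ^ (n + 1) = z * q.den := by exact_mod_cast h1
  have h3 : (q.den : ℤ) ∣ (N : ℤ) ^ (n + 1) :=
    (Int.isCoprime_iff_nat_coprime.2 (by simpa using q.reduced)).symm.dvd_of_dvd_mul_left
      ⟨z, by linear_combination h2⟩
  exact hp.dvd_of_dvd_pow (hn.trans (Int.natCast_dvd_natCast.1 (by exact_mod_cast h3)))

end FA.EisensteinTheorem

end
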